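import Fermat.Agent.A2.Mod.Spec
import Fermat.Agent.A2.H528.FrickeDistinct

/-!
# A2 / MOD leaf L6 (helper725): `vzeroNe : VzeroNeStatement P E M q w`

`V₀ := V∞ ∘ W ≠ V∞` at level `N = M q`.

Proof.  The Frobenius element `f := j_q - j ^ q` has an integral expansion divisible by `q`
(`H528.exists_frobCong`), hence `f⁻¹ ∉ V∞` (`q` is a non-unit of `R`).  On the other hand
`W f = j_M - j_N ^ q` has an integral expansion with coefficient `-1` at `t ^ (-(N q))`, so it is
primitive and `(W f)⁻¹ ∈ V∞`.  If `W` preserved `V∞` we would get `f⁻¹ ∈ V∞`.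
-/

set_option autoImplicit false
set_option synthInstance.maxHeartbeats 400000
set_option maxHeartbeats 1600000

noncomputable section

namespace Fermat.Agent.A2.Mod.H725

open ModularCurve HahnSeries Polynomial Fermat.Agent.A2 Fermat.Agent.A2.Mod

variable (P : ValuationSubring Qb) (E : IntermediateField ℚ Qb)

/-- `j(t^d)` is the image of the integral series `jZ d`. -/
theorem castQ_jZ (d : ℕ) [NeZero d] : H708.castQ (H528.jZ d) = qExpand ℚ d jq := by
  have h1 : jq = coeffMap (Int.castRingHom ℚ) (jqModC ℤ) := by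
    rw [← jqModC_rat]
    exact (map_jqModC (Int.castRingHom ℚ)).symm
  rw [h1, H528.jZ, H708.castQ, coeffMap_qExpand]

/-- The expansion of the generator `j_d` is the integral series `jZ d`. -/
theorem coe_jE (N d : ℕ) [NeZero d] (hd : d ∣ N) :
    ((jE E N d hd : FE E N) : LaurentSeries E) =
      H708.incl (RE P E) (H708.castA (RE P E) (H528.jZ d)) := by
  rw [H708.incl_castA, castQ_jZ]
  rfl

/-- An element of `F_N` which is the image of an integral series with a coefficient `-1`
is a unit of `V∞`. -/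
theorem inv_mem_of_coeff_neg_one (N : ℕ) (V : ValuationSubring (FE E N))
    (hV : IsVinf P E N V) (f : FE E N) (g : LaurentSeries ℤ) (k : ℤ)
    (hf : (f : LaurentSeries E) = H708.incl (RE P E) (H708.castA (RE P E) g))
    (hk : g.coeff k = -1) : f⁻¹ ∈ V := by
  rw [hV]
  have hred : H708.red (RE P E) (H708.castA (RE P E) g) ≠ 0 := by
    intro h0
    have h1 := congrArg (fun s => s.coeff k) h0
    simp only [HahnSeries.coeff_zero] at h1
    have h2 : (H708.red (RE P E) (H708.castA (RE P E) g)).coeff k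
        = IsLocalRing.residue (RE P E) (((g.coeff k : ℤ) : RE P E)) := rfl
    rw [h2, hk] at h1
    have h3 : IsLocalRing.residue (RE P E) (((-1 : ℤ) : RE P E)) = -1 := by
      simp
    rw [h3] at h1
    exact one_ne_zero (neg_eq_zero.mp h1)
  have hf0 : (f : LaurentSeries E) ≠ 0 := by
    rw [hf]
    exact H708.incl_ne_zero (RE P E) (H708.ne_zero_of_red_ne_zero (RE P E) hred)
  refine ⟨1, H708.castA (RE P E) g, hred, ?_, ?_⟩
  · rw [← hf]
    exact f.2
  · rw [← hf, map_one]
    show ((f⁻¹ : FE E N) : LaurentSeries E) * (f : LaurentSeries E) = 1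
    rw [IntermediateField.coe_inv]
    exact inv_mul_cancel₀ hf0

/-- `q` is a non-unit of `R_E`. -/
theorem residue_natCast_eq_zero (q : ℕ) (hq : P.LiesOverPrime q) :
    IsLocalRing.residue (RE P E) ((q : ℤ) : RE P E) = 0 := by
  rw [IsLocalRing.residue_eq_zero_iff, IsLocalRing.mem_maximalIdeal, mem_nonunits_iff]
  intro hu
  have h1 : ((((q : ℤ) : RE P E) : E) : Qb) = (q : Qb) := by
    push_cast
    rfl
  -- the inverse of `q` in `R_E` gives an inverse in `P`
  obtain ⟨u, hu'⟩ := hu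
  have h2 : (((u : RE P E) : E) : Qb) = (q : Qb) := by rw [hu', h1]
  have h3 : ((((u⁻¹ : (RE P E)ˣ) : RE P E) : E) : Qb) ∈ P := ((u⁻¹ : (RE P E)ˣ) : RE P E).2
  have h4 : ((((u⁻¹ : (RE P E)ˣ) : RE P E) : E) : Qb) * (q : Qb) = 1 := by
    rw [← h2]
    have h5 : ((u⁻¹ : (RE P E)ˣ) : RE P E) * (u : RE P E) = 1 := Units.inv_mul u
    calc ((((u⁻¹ : (RE P E)ˣ) : RE P E) : E) : Qb) * (((u : RE P E) : E) : Qb)
        = (((((u⁻¹ : (RE P E)ˣ) : RE P E) * (u : RE P E) : RE P E) : E) : Qb) := rfl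
      _ = 1 := by rw [h5]; rfl
  have hq' : (q : Qb) ∈ P.nonunits := hq
  rw [ValuationSubring.mem_nonunits_iff_exists_mem_maximalIdeal] at hq'
  obtain ⟨hqP, hqm⟩ := hq'
  rw [IsLocalRing.mem_maximalIdeal, mem_nonunits_iff] at hqm
  apply hqm
  refine IsUnit.of_mul_eq_one ⟨_, h3⟩ ?_
  exact Subtype.ext (by rw [mul_comm]; exact h4)

/-- An element of `F_N` which is the image of `q` times an integral series is a non-unit of
`V∞`. -/
theorem inv_notMem_of_dvd (N : ℕ) (V : ValuationSubring (FE E N))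
    (hV : IsVinf P E N V) (q : ℕ) (hq : P.LiesOverPrime q) (f : FE E N) (g : LaurentSeries ℤ)
    (hf : (f : LaurentSeries E) =
      H708.incl (RE P E) (H708.castA (RE P E) (HahnSeries.C (q : ℤ) * g))) (hf0 : f ≠ 0) :
    f⁻¹ ∉ V := by
  rw [hV]
  rintro ⟨U₁, U₂, hU₂, -, he⟩
  have hf0' : (f : LaurentSeries E) ≠ 0 := fun h => hf0 (Subtype.ext h)
  have h1 : H708.incl (RE P E) U₂ =
      H708.incl (RE P E) (H708.castA (RE P E) (HahnSeries.C (q : ℤ) * g) * U₁) := by
    rw [map_mul, ← hf, ← he, IntermediateField.coe_inv, ← mul_assoc, mul_inv_cancel₀ hf0',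
      one_mul]
  have h2 := H708.incl_injective (RE P E) h1
  apply hU₂
  rw [h2, map_mul, map_mul, map_mul]
  have h3 : H708.red (RE P E) (H708.castA (RE P E) (HahnSeries.C (q : ℤ))) = 0 := by
    ext k
    show IsLocalRing.residue (RE P E) ((((HahnSeries.C (q : ℤ) : LaurentSeries ℤ).coeff k : ℤ) :
      RE P E)) = 0
    by_cases hk : k = 0
    · subst hk
      rw [HahnSeries.C_apply, HahnSeries.coeff_single_same]
      exact residue_natCast_eq_zero P E q hq
    · rw [HahnSeries.C_apply, HahnSeries.coeff_single_of_ne hk]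
      simp
  rw [h3, zero_mul, zero_mul]

variable (M q : ℕ) [NeZero M] [NeZero q] (w : RE P E)

/-- **L6.** `V∞ ∘ W ≠ V∞` at level `M q`. -/
theorem vzeroNe : VzeroNeStatement P E M q w := by
  intro hS V W hV hW hcomap
  have : Fact q.Prime := ⟨hS.q_prime⟩
  have : NeZero (M * q) := ⟨Nat.mul_ne_zero (NeZero.ne M) (NeZero.ne q)⟩
  have hq1 : 1 < q := hS.q_prime.one_lt
  have hM : 0 < M := Nat.pos_of_ne_zero (NeZero.ne M)
  -- the Frobenius element
  set f : FE E (M * q) :=
    jE E (M * q) q (dvd_mul_left q M) - jE E (M * q) 1 (one_dvd _) ^ q with hf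
  -- its image under `W`
  have hWf : W f = jE E (M * q) M (dvd_mul_right M q) - jE E (M * q) (M * q) dvd_rfl ^ q := by
    rw [hf, map_sub, map_pow, hW.1 q M (dvd_mul_left q M) (dvd_mul_right M q) (mul_comm q M),
      hW.1 1 (M * q) (one_dvd _) dvd_rfl (one_mul _)]
  -- expansion of `W f`
  have hWfc : ((W f : FE E (M * q)) : LaurentSeries E) =
      H708.incl (RE P E) (H708.castA (RE P E) (H528.jZ M - H528.jZ (M * q) ^ q)) := by
    rw [hWf]
    show ((jE E (M * q) M (dvd_mul_right M q) : FE E (M * q)) : LaurentSeries E)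
      - ((jE E (M * q) (M * q) dvd_rfl : FE E (M * q)) : LaurentSeries E) ^ q = _
    rw [coe_jE P E, coe_jE P E, map_sub, map_sub, map_pow, map_pow]
  have hcoef : (H528.jZ M - H528.jZ (M * q) ^ q).coeff (-(((M * q) * q : ℕ) : ℤ)) = -1 := by
    rw [HahnSeries.coeff_sub, H528.coeff_jZ_pow_top, H528.coeff_jZ_of_lt, zero_sub]
    have h2 : M < M * q * q := by
      calc M = M * 1 := (mul_one M).symm
        _ < M * (q * q) := (Nat.mul_lt_mul_left hM).mpr (by nlinarith)
        _ = M * q * q := (mul_assoc M q q).symm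
    have h3 : ((M : ℕ) : ℤ) < ((M * q * q : ℕ) : ℤ) := by exact_mod_cast h2
    linarith
  have hWfinv : (W f)⁻¹ ∈ V :=
    inv_mem_of_coeff_neg_one P E (M * q) V hV (W f) _ _ hWfc hcoef
  have hWf0 : W f ≠ 0 := by
    intro h0
    rw [h0, ZeroMemClass.coe_zero] at hWfc
    have h1 := H708.incl_injective (RE P E) (hWfc.symm.trans (map_zero _).symm)
    have h2 := H708.castA_injective (RE P E) (h1.trans (map_zero _).symm)
    rw [h2] at hcoef
    simp at hcoef
  have hf0 : f ≠ 0 := fun h0 => hWf0 (by rw [h0, map_zero])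
  -- expansion of `f`
  obtain ⟨g, hg⟩ := H528.exists_frobCong q (jqModC ℤ)
  have hfc : ((f : FE E (M * q)) : LaurentSeries E) =
      H708.incl (RE P E) (H708.castA (RE P E) (HahnSeries.C (q : ℤ) * g)) := by
    rw [← hg, hf]
    show ((jE E (M * q) q (dvd_mul_left q M) : FE E (M * q)) : LaurentSeries E)
      - ((jE E (M * q) 1 (one_dvd _) : FE E (M * q)) : LaurentSeries E) ^ q = _
    rw [coe_jE P E, coe_jE P E, map_sub, map_sub, map_pow, map_pow]
    have h1 : H528.jZ 1 = jqModC ℤ := qExpand_one_apply _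
    rw [h1]
    rfl
  have hfinv : f⁻¹ ∉ V := inv_notMem_of_dvd P E (M * q) V hV q hS.lies_over f g hfc hf0
  apply hfinv
  rw [← hcomap, ValuationSubring.mem_comap]
  show W f⁻¹ ∈ V
  rw [map_inv₀]
  exact hWfinv

end Fermat.Agent.A2.Mod.H725
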